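/-
Program A (S29 / S42), leaf (ORD), part 1: divisibility at the places over FINITE centres.

If `P` is a polynomial in the `j_d` whose analytic function `Theta N P` is the `p`-th power of a
holomorphic function `G` on the upper half plane, then `p ∣ v.ord (evF N P)` for every place `v`
of `F = ℚ̄(j_d : d ∣ N)` with a finite centre (`0 < v.ord (j - c)`), provided, when `p ∈ {2, 3}`,
that `G` is invariant under the elements of finite order of `Γ₀(N)`.

Everything is read off the landed S24 dictionary (`LocalData`, `exists_localData_at`,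
`exists_rel_of_place`, `ord_π_eq_minimalPeriod`, `dvd_analyticOrderAt_of_fixed`).
(helper5)
-/
import Fermat.Agent.S24.FinCenter
import Fermat.Agent.S24.LocalSum
import Fermat.Agent.S24.H92.Taylor

set_option autoImplicit false

open UpperHalfPlane ModularCurve CongruenceSubgroup AlgebraicCurve
open scoped MatrixGroups Manifold

noncomputable section

namespace Fermat.Agent.S29.H5

open Fermat.Agent.S24

/-- Taylor series are multiplicative on powers. -/
theorem taylorAt_pow (τ₀ : ℍ) {f : ℍ → ℂ} (hf : MDiff f) (n : ℕ) :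
    taylorAt τ₀ (f ^ n) = taylorAt τ₀ f ^ n ∧ MDiff (f ^ n) := by
  induction n with
  | zero =>
    refine ⟨?_, ?_⟩
    · have h := taylorAt_const τ₀ 1
      rw [map_one] at h
      rw [pow_zero, pow_zero]
      exact h
    · rw [pow_zero]
      exact (mdifferentiable_const : MDiff fun _ : ℍ => (1 : ℂ))
  | succ n ih =>
    obtain ⟨ih1, ih2⟩ := ih
    refine ⟨?_, ?_⟩
    · rw [pow_succ, pow_succ, taylorAt_mul τ₀ ih2 hf, ih1]
    · rw [pow_succ]
      exact ih2.mul hf

/-- The fraction property of the polynomial subalgebra. -/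
theorem frac_range (N : ℕ) [NeZero N] (f : FF N) :
    ∃ a ∈ (evF N).range, ∃ b ∈ (evF N).range, b ≠ 0 ∧ f = a / b := by
  obtain ⟨P, Q, hQ, hf⟩ := evF_frac N f
  exact ⟨evF N P, ⟨P, rfl⟩, evF N Q, ⟨Q, rfl⟩, hQ, hf⟩

/-- A coset fixed by `γ` gives an element of `Γ₀(N)` conjugate to `γ`. -/
theorem conj_mem_of_smul_eq (N : ℕ) (γ : SL(2, ℤ)) (x : XX N) (h : γ • x = x) :
    (Quotient.out x : SL(2, ℤ))⁻¹ * γ * (Quotient.out x : SL(2, ℤ)) ∈ Gamma0 N := by
  have hx : (QuotientGroup.mk (Quotient.out x : SL(2, ℤ)) : XX N) = x := Quotient.out_eq x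
  have h2 : (QuotientGroup.mk (γ * (Quotient.out x : SL(2, ℤ))) : XX N)
      = QuotientGroup.mk (Quotient.out x : SL(2, ℤ)) := by
    have h3 : γ • (QuotientGroup.mk (Quotient.out x : SL(2, ℤ)) : XX N)
        = QuotientGroup.mk (γ * (Quotient.out x : SL(2, ℤ))) := rfl
    rw [← h3, hx, h]
  have h4 := QuotientGroup.eq.mp h2
  have h5 : (Quotient.out x : SL(2, ℤ))⁻¹ * γ * (Quotient.out x : SL(2, ℤ))
      = ((γ * (Quotient.out x : SL(2, ℤ)))⁻¹ * (Quotient.out x : SL(2, ℤ)))⁻¹ := by
    group
  rw [h5]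
  exact (Gamma0 N).inv_mem h4

/-- **Finite-centre step, generic form.** -/
theorem ord_dvd_at (N : ℕ) [NeZero N] (p : ℕ) (hp : p.Prime) (c : Kbar)
    (τ₀ : ℍ) (γ : SL(2, ℤ)) (hγτ : γ • τ₀ = τ₀) (s : ℕ) (hs : s = 1 ∨ s.Prime)
    (hγs : ∀ x : XX N, γ ^ s • x = x)
    (hprim : IsPrimitiveRoot (denom (γ : GL (Fin 2) ℝ) τ₀ ^ 2) s)
    (hord : analyticOrderAt (fun z : ℂ => Jfun (ofComplex z) - iota c) (τ₀ : ℂ) = s)
    (P : MvPolynomial (N.divisors) Kbar) (hP : evF N P ≠ 0)
    (G : ℍ → ℂ) (hG : MDiff G) (hpow : ∀ τ, G τ ^ p = Theta N P τ)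
    (hinv : p = s → ∀ g : SL(2, ℤ), g⁻¹ * γ * g ∈ Gamma0 N →
      ∀ τ, G ((g⁻¹ * γ * g) • τ) = G τ)
    (v : Place Kbar (FF N)) (hv : 0 < v.ord (jgen N - algebraMap Kbar (FF N) c)) :
    (p : ℤ) ∣ v.ord (evF N P) := by
  classical
  let _ : Fintype (XX N) := Fintype.ofFinite _
  have hs0 : 0 < s := by
    rcases hs with rfl | hs
    · exact one_pos
    · exact hs.pos
  have hpowx : ∀ (x : XX N) (k : ℕ), γ ^ k • x = x → s ∣ k ∨ γ • x = x := by
    rcases hs with rfl | hs
    · exact fun x k _ => Or.inl (one_dvd k)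
    · exact fun x k hk => H49.dvd_or_smul_eq_of_pow_smul γ hs hγs x k hk
  obtain ⟨L, hρ, hφ⟩ := H49.exists_localData_at N c τ₀ γ hγτ s hs0 hord hprim hpowx
  have hR := frac_range N
  obtain ⟨x, hx⟩ := L.exists_rel_of_place hR v hv
  -- the translate of `G`
  set g : SL(2, ℤ) := Quotient.out x with hg
  set Gx : ℍ → ℂ := fun τ => G (g⁻¹ • τ) with hGx
  have hGxd : MDiff Gx := H92.mdiff_comp_smul g⁻¹ hG
  have htr : transl N x P = Gx ^ p := by
    funext τ
    show Theta N P (g⁻¹ • τ) = G (g⁻¹ • τ) ^ p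
    rw [hpow]
  set T : PowerSeries ℂ := taylorAt τ₀ Gx with hT
  have hTp : taylorAt τ₀ (transl N x P) = T ^ p := by
    rw [htr, (taylorAt_pow τ₀ hGxd p).1]
  have hT0 : T ≠ 0 := by
    intro h0
    have h1 : taylorAt τ₀ (transl N x P) = 0 := by
      rw [hTp, h0, zero_pow hp.ne_zero]
    have h2 : transl N x P = 0 := (taylorAt_eq_zero_iff τ₀ (mdiff_transl N x P)).mp h1
    exact hP ((Theta_eq_zero_iff N P).mp ((transl_eq_zero_iff N x P).mp h2))
  set m : ℕ := T.order.toNat with hm
  have hTord : T.order = (m : ℕ∞) := by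
    rw [hm, ENat.natCast_toNat]
    exact fun h => hT0 (PowerSeries.order_eq_top.mp h)
  -- the order of `φ x (evF P)`
  have hordP : (L.φ x (evF N P)).order = (p : ℤ) * m := by
    rw [hφ, hTp, map_pow, lorder_pow, order_ofPowerSeries hT0]
  -- the value of `L.s`
  have hLs : (L.s : ℤ) = s := by
    have h1 := L.order_π x
    have hπ : jgen N - algebraMap Kbar (FF N) c
        = evF N (MvPolynomial.X (oneDiv N) - MvPolynomial.C c) := by
      rw [map_sub, evF_X_one]
      congr 1
      simp [evF]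
    have htrπ : transl N x (MvPolynomial.X (oneDiv N) - MvPolynomial.C c)
        = fun τ => Jfun τ - iota c := by
      rw [H49.transl_sub, transl_X_one, transl_C]
      rfl
    have hd : MDiff (fun τ : ℍ => Jfun τ - iota c) := by
      rw [← htrπ]
      exact mdiff_transl N x _
    have h2 : (taylorAt τ₀ (fun τ : ℍ => Jfun τ - iota c)).order = (s : ℕ∞) := by
      rw [order_taylorAt τ₀ hd]
      exact hord
    have h3 : taylorAt τ₀ (fun τ : ℍ => Jfun τ - iota c) ≠ 0 := by
      intro h0
      rw [h0, PowerSeries.order_zero] at h2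
      exact ENat.top_ne_natCast s h2
    have h1' : (L.φ x (evF N (MvPolynomial.X (oneDiv N) - MvPolynomial.C c))).order = L.s := by
      rw [← hπ]
      exact h1
    rw [hφ, htrπ, order_ofPowerSeries h3, h2] at h1'
    simpa using h1'.symm
  -- the ramification index
  have he := L.ord_π_eq_minimalPeriod hR v hv hx
  have hrel := hx (evF N P)
  rw [hordP, hLs] at hrel
  -- `hrel : p * m * v.ord π = s * v.ord (evF N P)`
  rcases hs with rfl | hsp
  · refine ⟨m * v.ord (jgen N - algebraMap Kbar (FF N) c), ?_⟩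
    have : v.ord (evF N P) = (p : ℤ) * m * v.ord (jgen N - algebraMap Kbar (FF N) c) := by
      rw [hrel]; simp
    rw [this]; ring
  · by_cases hps : p = s
    · subst hps
      have hp0 : (p : ℤ) ≠ 0 := by exact_mod_cast hp.ne_zero
      have hval : v.ord (evF N P) = m * v.ord (jgen N - algebraMap Kbar (FF N) c) := by
        apply mul_left_cancel₀ hp0
        rw [← hrel]; ring
      rw [hval, he]
      -- the minimal period divides `p`
      have hper : Function.minimalPeriod L.ρ x ∣ p := by
        apply Function.IsPeriodicPt.minimalPeriod_dvd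
        show (L.ρ)^[p] x = x
        rw [hρ]
        have : ((MulAction.toPerm γ : Equiv.Perm (XX N)))^[p] x = γ ^ p • x := by
          rw [Equiv.Perm.iterate_eq_pow]
          have hk : ∀ k : ℕ, ((MulAction.toPerm γ : Equiv.Perm (XX N)) ^ k) x = γ ^ k • x := by
            intro k
            induction k with
            | zero => simp
            | succ k ih =>
              rw [pow_succ', Equiv.Perm.mul_apply, ih, pow_succ', mul_smul]
              rfl
          exact hk p
        rw [this]
        exact hγs x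
      rcases (Nat.dvd_prime hp).mp hper with h1 | h1
      · -- a fixed coset: use the invariance of `G`
        have hfix : γ • x = x := by
          have h2 : Function.IsPeriodicPt L.ρ 1 x := by
            rw [← h1]; exact Function.isPeriodicPt_minimalPeriod _ _
          have h3 : L.ρ x = x := h2
          rw [hρ] at h3
          exact h3
        have hmem := conj_mem_of_smul_eq N γ x hfix
        have hinvG : ∀ τ, Gx (γ • τ) = Gx τ := by
          intro τ
          have h4 := hinv rfl g hmem (g⁻¹ • τ)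
          show G (g⁻¹ • γ • τ) = G (g⁻¹ • τ)
          rw [← h4]
          congr 1
          rw [mul_smul, mul_smul, smul_inv_smul]
        have hn : analyticOrderAt (Gx ∘ ofComplex) (τ₀ : ℂ) = m := by
          rw [← order_taylorAt τ₀ hGxd]
          exact hTord
        have hdvd := dvd_analyticOrderAt_of_fixed τ₀ hGxd γ hγτ hinvG p m hprim hn
        exact Dvd.dvd.mul_right (by exact_mod_cast hdvd) _
      · rw [h1]
        exact Dvd.intro_left _ rfl
    · have hdvd : (p : ℤ) ∣ (s : ℤ) * v.ord (evF N P) := by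
        rw [← hrel]
        exact ⟨m * v.ord (jgen N - algebraMap Kbar (FF N) c), by ring⟩
      rcases (Nat.prime_iff_prime_int.mp hp).dvd_or_dvd hdvd with h | h
      · exfalso
        have h' : p ∣ s := by exact_mod_cast h
        exact hps ((Nat.prime_dvd_prime_iff_eq hp hsp).mp h')
      · exact h

/-- Conjugates of elements of finite order have finite order. -/
theorem isOfFinOrder_conj' {H : Type*} [Group H] (g γ : H) (h : IsOfFinOrder γ) :
    IsOfFinOrder (g⁻¹ * γ * g) := by
  rw [isOfFinOrder_iff_pow_eq_one] at h ⊢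
  obtain ⟨n, hn, hγ⟩ := h
  refine ⟨n, hn, ?_⟩
  have h1 : (g⁻¹ * γ * g) ^ n = g⁻¹ * γ ^ n * g := by
    have := conj_pow (a := g⁻¹) (b := γ) (i := n)
    simpa using this
  rw [h1, hγ]
  simp

theorem isOfFinOrder_S : IsOfFinOrder (ModularGroup.S : SL(2, ℤ)) := by
  rw [isOfFinOrder_iff_pow_eq_one]
  refine ⟨4, by norm_num, ?_⟩
  have h : (ModularGroup.S : SL(2, ℤ)) ^ 4 = (ModularGroup.S ^ 2) ^ 2 := by
    rw [← pow_mul]
  rw [h, Fermat.Agent.S20.H46.S_sq_eq_neg_one]
  simp

theorem isOfFinOrder_ST : IsOfFinOrder (ModularGroup.S * ModularGroup.T : SL(2, ℤ)) := by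
  rw [isOfFinOrder_iff_pow_eq_one]
  refine ⟨6, by norm_num, ?_⟩
  have h : (ModularGroup.S * ModularGroup.T : SL(2, ℤ)) ^ 6
      = ((ModularGroup.S * ModularGroup.T) ^ 3) ^ 2 := by
    rw [← pow_mul]
  rw [h, Fermat.Agent.S20.H46.ST_cube_eq_neg_one]
  simp

/-- **(ORD), finite centres.**  If `Theta N P = G ^ p` with `G` holomorphic (and, for
`p ≤ 3`, invariant under the elements of finite order of `Γ₀(N)`), then `p` divides the order
of `evF N P` at every place with a finite centre. -/
theorem ord_dvd_fin (N : ℕ) [NeZero N] (p : ℕ) (hp : p.Prime)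
    (P : MvPolynomial (N.divisors) Kbar) (hP : evF N P ≠ 0)
    (G : ℍ → ℂ) (hG : MDiff G) (hpow : ∀ τ, G τ ^ p = Theta N P τ)
    (hell : p ≤ 3 → ∀ γ ∈ Gamma0 N, IsOfFinOrder γ → ∀ τ, G (γ • τ) = G τ)
    (c : Kbar) (v : Place Kbar (FF N))
    (hv : 0 < v.ord (jgen N - algebraMap Kbar (FF N) c)) :
    (p : ℤ) ∣ v.ord (evF N P) := by
  by_cases h0 : c = 0
  · -- the elliptic point of order 3
    refine ord_dvd_at N p hp c ellRho (ModularGroup.S * ModularGroup.T) H64.ST_smul_rho 3
      (Or.inr Nat.prime_three) (Fermat.Agent.S20.H46.ST_cube_smul N) isPrimitiveRoot_denom_ST ?_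
      P hP G hG hpow ?_ v hv
    · rw [h0, map_zero]
      simpa using analyticOrderAt_Jfun_rho
    · intro hp3 g hg τ
      exact hell (by omega) _ hg (isOfFinOrder_conj' g _ isOfFinOrder_ST) τ
  · by_cases h1 : c = 1728
    · -- the elliptic point of order 2
      refine ord_dvd_at N p hp c UpperHalfPlane.I ModularGroup.S H64.S_smul_I 2
        (Or.inr Nat.prime_two) (Fermat.Agent.S20.H46.S_sq_smul N) isPrimitiveRoot_denom_S ?_
        P hP G hG hpow ?_ v hv
      · rw [h1, map_ofNat]
        exact_mod_cast analyticOrderAt_Jfun_I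
      · intro hp2 g hg τ
        exact hell (by omega) _ hg (isOfFinOrder_conj' g _ isOfFinOrder_S) τ
    · -- a generic point
      have hτ : Jfun (centerPt c) = iota c := Jfun_centerPt c
      have hJ0 : Jfun (centerPt c) ≠ 0 := by
        rw [hτ]
        exact (map_ne_zero iota).mpr h0
      have hJ1 : Jfun (centerPt c) ≠ 1728 := by
        rw [hτ]
        intro h
        apply h1
        apply iota.injective
        rw [h, map_ofNat]
      refine ord_dvd_at N p hp c (centerPt c) 1 (one_smul _ _) 1 (Or.inl rfl)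
        (fun x => by simp) ?_ ?_ P hP G hG hpow ?_ v hv
      · rw [IsPrimitiveRoot.one_right_iff]
        simp [denom]
      · rw [← hτ]
        exact_mod_cast analyticOrderAt_Jfun_generic (centerPt c) hJ0 hJ1
      · intro hp1
        exact absurd hp1 hp.one_lt.ne'

end Fermat.Agent.S29.H5
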