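/-
Program A (S29 / S42), leaf (ORD), analytic core for the cusps (Mathlib + the definition `qN`).

`dvd_of_periodic_root`: let `F` be a continuous function on the upper half plane with
`F (τ + k) = F τ`, and suppose `F ^ p / q_N ^ n` tends to a nonzero limit at `i∞`
(`q_N = e^{2πiτ/N}`), where `n * k = N * n'`.  Then `p ∣ n'`.

Proof.  `Φ := F · e^{-2πi n τ/(N p)}` satisfies `Φ^p = F^p / q_N^n → c ≠ 0` and
`Φ (τ + k) = ω Φ τ`, `ω = e^{-2πi n'/p}`.  Far up, `Φ^p / c` stays in the disc `|z - 1| < 1/2`, so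
`ρ := exp (log (Φ^p / c) / p)` is a continuous `p`-th root of `Φ^p / c` along the horizontal line
`t ↦ τ₀ + t`, and `Φ / ρ` is a continuous map from `ℝ` to the finite set `{z | z^p = c}`, hence
constant.  Comparing `t = 0` and `t = k` gives `ω = 1`.
(helper5)
-/
import Fermat.Agent.S24.ModDefs

set_option autoImplicit false

open UpperHalfPlane Filter Topology Complex
open scoped Real

noncomputable section

namespace Fermat.Agent.S29.H5

open Fermat.Agent.S24

/-- The twisting exponential `e^{-2πi n τ/(N p)}`. -/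
def twist (N p : ℕ) (n : ℤ) (τ : ℍ) : ℂ :=
  Complex.exp (-(2 * π * Complex.I * n * (τ : ℂ)) / (N * p))

theorem continuous_twist (N p : ℕ) (n : ℤ) : Continuous (twist N p n) := by
  unfold twist
  exact Complex.continuous_exp.comp
    (((continuous_const.mul UpperHalfPlane.continuous_coe).neg).div_const _)

theorem twist_ne_zero (N p : ℕ) (n : ℤ) (τ : ℍ) : twist N p n τ ≠ 0 :=
  Complex.exp_ne_zero _

theorem twist_pow (N p : ℕ) [NeZero N] (hp : 0 < p) (n : ℤ) (τ : ℍ) :
    twist N p n τ ^ p = (qN N τ ^ n)⁻¹ := by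
  have hN : (N : ℂ) ≠ 0 := by exact_mod_cast NeZero.ne N
  have hp0 : (p : ℂ) ≠ 0 := by exact_mod_cast hp.ne'
  unfold twist qN Function.Periodic.qParam
  rw [← Complex.exp_nat_mul, ← Complex.exp_int_mul, ← Complex.exp_neg]
  congr 1
  push_cast
  field_simp

theorem twist_vadd (N p : ℕ) [NeZero N] (hp : 0 < p) (n n' : ℤ) (k : ℕ)
    (hn : n * k = N * n') (τ : ℍ) :
    twist N p n ((k : ℝ) +ᵥ τ) = twist N p n τ * Complex.exp (-(2 * π * Complex.I * n') / p) := by
  have hN : (N : ℂ) ≠ 0 := by exact_mod_cast NeZero.ne N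
  have hp0 : (p : ℂ) ≠ 0 := by exact_mod_cast hp.ne'
  have hn' : (n : ℂ) * k = N * n' := by exact_mod_cast hn
  unfold twist
  rw [← Complex.exp_add, UpperHalfPlane.coe_vadd]
  congr 1
  have h1 : -(2 * (π : ℂ) * Complex.I * n') / p
      = -(2 * (π : ℂ) * Complex.I * ((n : ℂ) * k)) / (N * p) := by
    rw [hn']
    field_simp
  rw [h1]
  push_cast
  ring

/-- The finite set of `p`-th roots of `c`. -/
theorem finite_pow_eq {p : ℕ} (hp : 0 < p) (c : ℂ) : {z : ℂ | z ^ p = c}.Finite := by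
  have h : {z : ℂ | z ^ p = c} = ↑(Polynomial.nthRoots p c).toFinset := by
    ext z
    simp [Polynomial.mem_nthRoots hp]
  rw [h]
  exact Finset.finite_toSet _

/-- **Monodromy of a periodic `p`-th root at the cusp.** -/
theorem dvd_of_periodic_root {p : ℕ} (hp : 0 < p) {N : ℕ} [NeZero N] {k : ℕ}
    (F : ℍ → ℂ) (hF : Continuous F) (hper : ∀ τ : ℍ, F ((k : ℝ) +ᵥ τ) = F τ)
    (n n' : ℤ) (hn : n * k = N * n') (c : ℂ) (hc : c ≠ 0)
    (hlim : Tendsto (fun τ => F τ ^ p / qN N τ ^ n) atImInfty (𝓝 c)) :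
    (p : ℤ) ∣ n' := by
  have hp0 : (p : ℂ) ≠ 0 := by exact_mod_cast hp.ne'
  -- the twisted function
  set Φ : ℍ → ℂ := fun τ => F τ * twist N p n τ with hΦ
  have hΦc : Continuous Φ := hF.mul (continuous_twist N p n)
  have hΦp : ∀ τ, Φ τ ^ p = F τ ^ p / qN N τ ^ n := by
    intro τ
    rw [hΦ]
    simp only
    rw [mul_pow, twist_pow N p hp n τ, div_eq_mul_inv]
  set ω : ℂ := Complex.exp (-(2 * π * Complex.I * n') / p) with hω
  have hΦk : ∀ τ, Φ ((k : ℝ) +ᵥ τ) = Φ τ * ω := by
    intro τ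
    rw [hΦ]
    simp only
    rw [hper, twist_vadd N p hp n n' k hn τ, ← hω, mul_assoc]
  have hωp : ω ^ p = 1 := by
    rw [hω, ← Complex.exp_nat_mul]
    have : (p : ℂ) * (-(2 * π * Complex.I * n') / p) = (-n' : ℤ) * (2 * π * Complex.I) := by
      push_cast
      field_simp
    rw [this]
    exact Complex.exp_int_mul_two_pi_mul_I _
  -- far up, `Φ ^ p / c` is close to `1`
  have hlim' : Tendsto (fun τ => Φ τ ^ p / c) atImInfty (𝓝 1) := by
    have h1 : Tendsto (fun τ => F τ ^ p / qN N τ ^ n / c) atImInfty (𝓝 (c / c)) :=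
      hlim.div_const c
    rw [div_self hc] at h1
    refine h1.congr fun τ => ?_
    rw [hΦp]
  have hev : ∀ᶠ τ in atImInfty, ‖Φ τ ^ p / c - 1‖ < 1 / 2 := by
    have hball : Metric.ball (1 : ℂ) (1 / 2) ∈ 𝓝 (1 : ℂ) := Metric.ball_mem_nhds _ (by norm_num)
    filter_upwards [hlim' hball] with τ hτ
    simpa [Metric.mem_ball, dist_eq_norm] using hτ
  obtain ⟨A, hA⟩ := (UpperHalfPlane.atImInfty_mem _).mp hev
  -- the base point and the horizontal path
  let τ₀ : ℍ := ⟨⟨0, max A 1⟩, by
    show (0 : ℝ) < max A 1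
    exact lt_of_lt_of_le one_pos (le_max_right A 1)⟩
  have hτ₀ : A ≤ τ₀.im := le_max_left A 1
  set path : ℝ → ℍ := fun t => t +ᵥ τ₀ with hpath
  have hpathc : Continuous path := by
    rw [UpperHalfPlane.isEmbedding_coe.continuous_iff]
    have : (UpperHalfPlane.coe ∘ path) = fun t : ℝ => (t : ℂ) + (τ₀ : ℂ) := by
      funext t
      simp [hpath, UpperHalfPlane.coe_vadd]
    rw [this]
    exact Complex.continuous_ofReal.add continuous_const
  have hpathA : ∀ t, A ≤ (path t).im := by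
    intro t
    rw [hpath]
    simp only
    rw [UpperHalfPlane.vadd_im]
    exact hτ₀
  -- the quotient `E / c` along the path
  set Q : ℝ → ℂ := fun t => Φ (path t) ^ p / c with hQ
  have hQc : Continuous Q := ((hΦc.comp hpathc).pow p).div_const c
  have hQball : ∀ t, ‖Q t - 1‖ < 1 / 2 := fun t => hA (path t) (hpathA t)
  have hQslit : ∀ t, Q t ∈ Complex.slitPlane := by
    intro t
    have h1 : ‖Q t - 1‖ < 1 := lt_trans (hQball t) (by norm_num)
    have h2 := Complex.mem_slitPlane_of_norm_lt_one h1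
    simpa using h2
  have hQ0 : ∀ t, Q t ≠ 0 := fun t => Complex.slitPlane_ne_zero (hQslit t)
  -- the continuous root
  set ρ : ℝ → ℂ := fun t => Complex.exp (Complex.log (Q t) / p) with hρ
  have hρc : Continuous ρ := by
    refine Complex.continuous_exp.comp (Continuous.div_const ?_ _)
    exact continuous_iff_continuousAt.mpr fun t => (hQc.continuousAt).clog (hQslit t)
  have hρp : ∀ t, ρ t ^ p = Q t := by
    intro t
    rw [hρ]
    simp only
    rw [← Complex.exp_nat_mul, mul_div_cancel₀ _ hp0, Complex.exp_log (hQ0 t)]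
  have hρ0 : ∀ t, ρ t ≠ 0 := fun t => Complex.exp_ne_zero _
  -- the locally constant quotient
  set ξ : ℝ → ℂ := fun t => Φ (path t) / ρ t with hξ
  have hξc : Continuous ξ := (hΦc.comp hpathc).div hρc hρ0
  have hξp : ∀ t, ξ t ^ p = c := by
    intro t
    rw [hξ]
    simp only
    rw [div_pow, hρp, hQ]
    simp only
    have hne : Φ (path t) ^ p ≠ 0 := by
      intro h0
      have := hQ0 t
      rw [hQ] at this
      simp only [h0, zero_div, ne_eq, not_true_eq_false] at this
    field_simp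
  have hconst : ξ 0 = ξ k := by
    have hT : IsDiscrete {z : ℂ | z ^ p = c} := (finite_pow_eq hp c).isDiscrete
    exact isPreconnected_univ.constant_of_mapsTo hT hξc.continuousOn
      (fun t _ => hξp t) (Set.mem_univ _) (Set.mem_univ _)
  -- compare `t = 0` and `t = k`
  have hpath0 : path 0 = τ₀ := by
    rw [hpath]
    simp
  have hpathk : path k = (k : ℝ) +ᵥ τ₀ := rfl
  have hQk : Q k = Q 0 := by
    rw [hQ]
    simp only
    rw [hpathk, hpath0, hΦk, mul_pow, hωp, mul_one]
  have hρk : ρ k = ρ 0 := by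
    rw [hρ]
    simp only
    rw [hQk]
  have hξk : ξ k = ξ 0 * ω := by
    rw [hξ]
    simp only
    rw [hρk, hpathk, hpath0, hΦk]
    ring
  have hξ0 : ξ 0 ≠ 0 := by
    intro h0
    have := hξp 0
    rw [h0, zero_pow hp.ne'] at this
    exact hc this.symm
  have hω1 : ω = 1 := by
    have h1 : ξ 0 * ω = ξ 0 * 1 := by rw [mul_one, ← hξk, ← hconst]
    exact mul_left_cancel₀ hξ0 h1
  -- conclude
  rw [hω, Complex.exp_eq_one_iff] at hω1
  obtain ⟨m, hm⟩ := hω1
  have h2pi : (2 * (π : ℂ) * Complex.I) ≠ 0 := by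
    simp [Real.pi_ne_zero, Complex.I_ne_zero]
  have h3 : -(n' : ℂ) = m * p := by
    have h4 : -(2 * (π : ℂ) * Complex.I * n') = (m * (2 * π * Complex.I)) * p := by
      rw [← hm]
      field_simp
    have h5 : (2 * (π : ℂ) * Complex.I) * (-(n' : ℂ)) = (2 * (π : ℂ) * Complex.I) * (m * p) := by
      linear_combination h4
    exact mul_left_cancel₀ h2pi h5
  have h6 : -n' = m * p := by exact_mod_cast h3
  exact ⟨-m, by linarith⟩

end Fermat.Agent.S29.H5
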