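/-
Program A (S29 / S42), leaf (ORD), part 2: divisibility at the places over the CUSPS.

If `Theta N P = G ^ p` with `G` holomorphic on the upper half plane and invariant under the
parabolic elements of `Γ₀(N)` (trace² = 4, the Prelude's `IsParabolicHom` condition), then
`p ∣ v.ord (evF N P)` for every place `v` of `F = ℚ̄(j_d : d ∣ N)` over `j = ∞`.
No hypothesis on `p` beyond `0 < p`; in particular `p ∣ N` is allowed.

Read off the landed S24 dictionary at infinity (`exists_localData_inf`, `hasExp_PhiInf`,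
`exists_rel_of_place`, `ord_π_eq_minimalPeriod`) and `dvd_of_periodic_root`.
(helper5)
-/
import Fermat.Agent.S24.InfCenter
import Fermat.Agent.S24.LocalSum
import Fermat.Agent.S24.H92.Taylor
import Fermat.Agent.S29.H5.OrdFin
import Fermat.Agent.S29.H5.PeriodicRoot

set_option autoImplicit false

open UpperHalfPlane ModularCurve CongruenceSubgroup AlgebraicCurve Filter Topology
open scoped MatrixGroups Manifold

noncomputable section

namespace Fermat.Agent.S29.H5

open Fermat.Agent.S24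

/-- Conjugates of powers of `T` have trace `2`. -/
theorem trace_conj_T_pow (g : SL(2, ℤ)) (k : ℕ) :
    ((g⁻¹ * ModularGroup.T ^ k * g : SL(2, ℤ)) : Matrix (Fin 2) (Fin 2) ℤ).trace = 2 := by
  have h1 : ((g⁻¹ * ModularGroup.T ^ k * g : SL(2, ℤ)) : Matrix (Fin 2) (Fin 2) ℤ)
      = (g⁻¹ : SL(2, ℤ)).1 * (ModularGroup.T ^ k : SL(2, ℤ)).1 * g.1 := by
    simp [Matrix.SpecialLinearGroup.coe_mul]
  rw [h1, Matrix.trace_mul_comm, ← Matrix.mul_assoc]
  have h2 : g.1 * (g⁻¹ : SL(2, ℤ)).1 = 1 := by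
    rw [← Matrix.SpecialLinearGroup.coe_mul, mul_inv_cancel]
    rfl
  rw [h2, Matrix.one_mul]
  have h3 : (ModularGroup.T ^ k : SL(2, ℤ)) = ModularGroup.T ^ (k : ℤ) := (zpow_natCast _ k).symm
  rw [h3, ModularGroup.coe_T_zpow, Matrix.trace_fin_two]
  simp

/-- Iterates of the permutation attached to a group element. -/
theorem toPerm_pow_apply {H X : Type*} [Group H] [MulAction H X] (γ : H) (k : ℕ) (x : X) :
    ((MulAction.toPerm γ : Equiv.Perm X) ^ k) x = γ ^ k • x := by
  induction k with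
  | zero => simp
  | succ k ih =>
    rw [pow_succ', Equiv.Perm.mul_apply, ih, pow_succ', mul_smul]
    rfl

/-- **(ORD), cusps.** -/
theorem ord_dvd_inf (N : ℕ) [NeZero N] (p : ℕ) (hp : 0 < p)
    (P : MvPolynomial (N.divisors) Kbar) (hP : evF N P ≠ 0)
    (G : ℍ → ℂ) (hG : MDiff G) (hpow : ∀ τ, G τ ^ p = Theta N P τ)
    (hpar : ∀ γ ∈ Gamma0 N, (γ : Matrix (Fin 2) (Fin 2) ℤ).trace ^ 2 = 4 →
      ∀ τ, G (γ • τ) = G τ)
    (v : Place Kbar (FF N)) (hv : 0 < v.ord (jgen N)⁻¹) :
    (p : ℤ) ∣ v.ord (evF N P) := by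
  classical
  let _ : Fintype (XX N) := Fintype.ofFinite _
  obtain ⟨L, hρ, hφ⟩ := exists_localData_inf N
  have hR := frac_range N
  obtain ⟨x, hx⟩ := L.exists_rel_of_place hR v hv
  have he := L.ord_π_eq_minimalPeriod hR v hv hx
  set k : ℕ := Function.minimalPeriod L.ρ x with hk
  have hk0 : 0 < k := by
    have : (0 : ℤ) < (k : ℤ) := by rw [← he]; exact hv
    exact_mod_cast this
  -- the value of `L.s`
  have hLs : (L.s : ℤ) = N := by
    have h1 := L.order_π x
    have h2 : L.φ x (jgen N) = coeffMap iota (qExpand Kbar N (jqModC Kbar)) := by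
      have h3 : L.φ x (jgen N) = L.φ x (evF N (MvPolynomial.X (oneDiv N))) :=
        congrArg (L.φ x) (evF_X_one N).symm
      rw [h3, hφ, PhiInf_X_one]
    rw [map_inv₀, lorder_inv, h2, order_coeffMap, order_qExpand, H59inf.order_jqModC_Kbar] at h1
    rw [← h1]
    ring
  -- the translate of `G`
  set g : SL(2, ℤ) := Quotient.out x with hg
  set F : ℍ → ℂ := fun τ => G (g⁻¹ • τ) with hF
  have hFc : Continuous F := (H92.mdiff_comp_smul g⁻¹ hG).continuous
  have htr : ∀ τ, transl N x P τ = F τ ^ p := by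
    intro τ
    show Theta N P (g⁻¹ • τ) = G (g⁻¹ • τ) ^ p
    rw [hpow]
  -- periodicity
  have hfix : ModularGroup.T ^ k • x = x := by
    have h1 : Function.IsPeriodicPt L.ρ k x := Function.isPeriodicPt_minimalPeriod _ _
    have h2 : (L.ρ)^[k] x = x := h1
    rw [Equiv.Perm.iterate_eq_pow, hρ, toPerm_pow_apply] at h2
    exact h2
  have hmem := conj_mem_of_smul_eq N (ModularGroup.T ^ k) x hfix
  have hper : ∀ τ : ℍ, F ((k : ℝ) +ᵥ τ) = F τ := by
    intro τ
    have h1 : ((k : ℝ) +ᵥ τ : ℍ) = ModularGroup.T ^ k • τ := by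
      have h2 := UpperHalfPlane.modular_T_zpow_smul τ (k : ℤ)
      rw [zpow_natCast] at h2
      rw [h2]
      push_cast
      rfl
    have h3 := hpar _ hmem (by rw [trace_conj_T_pow]; norm_num) (g⁻¹ • τ)
    show G (g⁻¹ • ((k : ℝ) +ᵥ τ)) = G (g⁻¹ • τ)
    rw [h1, ← h3]
    congr 1
    rw [mul_smul, mul_smul, smul_inv_smul]
  -- the expansion at infinity
  have hexp : HasExp atImInfty (qN N) (transl N x P) (L.φ x (evF N P)) := by
    rw [hφ]
    exact hasExp_PhiInf N x P
  have hΛ0 : L.φ x (evF N P) ≠ 0 := L.φ_ne_zero x hP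
  have hc : (L.φ x (evF N P)).leadingCoeff ≠ 0 := HahnSeries.leadingCoeff_ne_zero.mpr hΛ0
  have hlim := H62.hasExp_tendsto_div_zpow_order (tendsto_qN N) hexp
  have hlim' : Tendsto (fun τ => F τ ^ p / qN N τ ^ (L.φ x (evF N P)).order) atImInfty
      (𝓝 (L.φ x (evF N P)).leadingCoeff) := by
    refine hlim.congr fun τ => ?_
    rw [htr]
  -- the relation between the orders
  have hrel := hx (evF N P)
  rw [hLs, he] at hrel
  exact dvd_of_periodic_root hp F hFc hper _ _ hrel _ hc hlim'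

end Fermat.Agent.S29.H5
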