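/-
Program A (S29 / S42), leaf (ORD): divisibility of the divisor at EVERY place of
`F = ℚ̄(j_d : d ∣ N)`.

`ord_dvd_of_pow` : if `Theta N P = G ^ p` with `G` holomorphic on the upper half plane, invariant
under the parabolic elements of `Γ₀(N)` (and, when `p ≤ 3`, under its elements of finite order),
then `p ∣ v.ord (evF N P)` for every place `v`.

`ord_dvd` : the same for a quotient `evF N P / evF N Q`, given a holomorphic `U` with
`U ^ p = Theta N P * Theta N Q ^ (p - 1)` (i.e. `W := U / Theta N Q` is a meromorphic `p`-th root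
of `Theta N P / Theta N Q`).

All primes `p` are allowed (`p = 2, 3` and `p ∣ N` included).
(helper5)
-/
import Fermat.Agent.S24.Residue
import Fermat.Agent.S24.Algebraic
import Fermat.Agent.S29.H5.OrdFin
import Fermat.Agent.S29.H5.OrdInf

set_option autoImplicit false

open UpperHalfPlane ModularCurve CongruenceSubgroup AlgebraicCurve
open scoped MatrixGroups Manifold

noncomputable section

namespace Fermat.Agent.S29.H5

open Fermat.Agent.S24

/-- `F` is algebraic over `ℚ̄(j)`. -/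
theorem isAlgebraic_adjoin_jgen (N : ℕ) [NeZero N] :
    Algebra.IsAlgebraic (IntermediateField.adjoin Kbar {jgen N}) (FF N) := by
  classical
  let _ : Fintype (XX N) := Fintype.ofFinite _
  obtain ⟨L, -, -⟩ := exists_localData_fin N 0
  have h := L.isAlgebraic (frac_range N)
  have hj : jgen N - algebraMap Kbar (FF N) 0 = jgen N := by simp
  rw [hj] at h
  exact h

/-- **(ORD), core form.**  If `Theta N P = G ^ p` with `G` holomorphic, invariant under the
parabolic elements of `Γ₀(N)` and (for `p ≤ 3`) under its elements of finite order, then `p`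
divides the order of `evF N P` at every place. -/
theorem ord_dvd_of_pow (N : ℕ) [NeZero N] (p : ℕ) (hp : p.Prime)
    (P : MvPolynomial (N.divisors) Kbar) (hP : evF N P ≠ 0)
    (G : ℍ → ℂ) (hG : MDiff G) (hpow : ∀ τ, G τ ^ p = Theta N P τ)
    (hpar : ∀ γ ∈ Gamma0 N, (γ : Matrix (Fin 2) (Fin 2) ℤ).trace ^ 2 = 4 →
      ∀ τ, G (γ • τ) = G τ)
    (hell : p ≤ 3 → ∀ γ ∈ Gamma0 N, IsOfFinOrder γ → ∀ τ, G (γ • τ) = G τ)
    (v : Place Kbar (FF N)) : (p : ℤ) ∣ v.ord (evF N P) := by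
  have := isAlgebraic_adjoin_jgen N
  rcases exists_center (jgen N) v with h | ⟨c, hc⟩
  · refine ord_dvd_inf N p hp.pos P hP G hG hpow hpar v ?_
    rw [v.ord_inv]
    omega
  · exact ord_dvd_fin N p hp P hP G hG hpow hell c v hc

/-- **(ORD).**  If `U` is holomorphic with `U ^ p = Theta N P * Theta N Q ^ (p - 1)`, invariant
under the parabolic elements of `Γ₀(N)` and (for `p ≤ 3`) under its elements of finite order,
then `p` divides the order of `evF N P / evF N Q` at every place. -/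
theorem ord_dvd (N : ℕ) [NeZero N] (p : ℕ) (hp : p.Prime)
    (P Q : MvPolynomial (N.divisors) Kbar) (hP : evF N P ≠ 0) (hQ : evF N Q ≠ 0)
    (U : ℍ → ℂ) (hU : MDiff U)
    (hpow : ∀ τ, U τ ^ p = Theta N P τ * Theta N Q τ ^ (p - 1))
    (hpar : ∀ γ ∈ Gamma0 N, (γ : Matrix (Fin 2) (Fin 2) ℤ).trace ^ 2 = 4 →
      ∀ τ, U (γ • τ) = U τ)
    (hell : p ≤ 3 → ∀ γ ∈ Gamma0 N, IsOfFinOrder γ → ∀ τ, U (γ • τ) = U τ)
    (v : Place Kbar (FF N)) : (p : ℤ) ∣ v.ord (evF N P / evF N Q) := by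
  have hQp : evF N Q ^ (p - 1) ≠ 0 := pow_ne_zero _ hQ
  have hPQ : evF N (P * Q ^ (p - 1)) ≠ 0 := by
    rw [map_mul, map_pow]
    exact mul_ne_zero hP hQp
  have hpow' : ∀ τ, U τ ^ p = Theta N (P * Q ^ (p - 1)) τ := by
    intro τ
    rw [hpow, map_mul, map_pow]
    rfl
  have h1 := ord_dvd_of_pow N p hp (P * Q ^ (p - 1)) hPQ U hU hpow' hpar hell v
  rw [map_mul, map_pow, v.ord_mul hP hQp, ord_pow] at h1
  rw [ord_div v hP hQ]
  have hp1 : ((p - 1 : ℕ) : ℤ) = (p : ℤ) - 1 := by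
    have := hp.pos
    omega
  rw [hp1] at h1
  obtain ⟨m, hm⟩ := h1
  exact ⟨m - v.ord (evF N Q), by linear_combination hm⟩

/-- **(ORD) for `p ≥ 5`**: no condition at the elliptic points. -/
theorem ord_dvd_of_five_le (N : ℕ) [NeZero N] (p : ℕ) (hp : p.Prime) (hp5 : 5 ≤ p)
    (P Q : MvPolynomial (N.divisors) Kbar) (hP : evF N P ≠ 0) (hQ : evF N Q ≠ 0)
    (U : ℍ → ℂ) (hU : MDiff U)
    (hpow : ∀ τ, U τ ^ p = Theta N P τ * Theta N Q τ ^ (p - 1))
    (hpar : ∀ γ ∈ Gamma0 N, (γ : Matrix (Fin 2) (Fin 2) ℤ).trace ^ 2 = 4 →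
      ∀ τ, U (γ • τ) = U τ)
    (v : Place Kbar (FF N)) : (p : ℤ) ∣ v.ord (evF N P / evF N Q) :=
  ord_dvd N p hp P Q hP hQ U hU hpow hpar (fun h => absurd h (by omega)) v

end Fermat.Agent.S29.H5
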